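import Mathlib

/-!
# PROJECT H (S17), slice (F), part 2: Kummer radicals inside `ℚ̄` (Lagrange resolvents)

`K₁ ⊂ ℚ̄` a subfield containing a primitive `m`-th root of unity, `H = G_{K₁}`, `V ≤ H` an open
subgroup containing the commutators and the `m`-th powers of `H`.  For every `σ ∈ H ∖ V` there is
`β ∈ ℚ̄ˣ` with `β ^ m ∈ K₁`, fixed by `V`, and `σ β ≠ β` (`exists_radical`).

Proof: `H/V` is a finite abelian group of exponent dividing `m`, so some character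
`φ : H/V → μ_m ⊂ K₁` has `φ σ ≠ 1`; by Dedekind's independence of the distinct embeddings
`h|_{ℚ̄^V}` (`h ∈ H/V`; distinct by the Galois correspondence for closed subgroups) the Lagrange
resolvent `β = ∑_{h ∈ H/V} φ(h)⁻¹ h(x)` is nonzero for some `x ∈ ℚ̄^V`, and `g β = φ(g) β`.
-/

set_option autoImplicit false
set_option linter.style.haveILetI false

namespace Fermat.Agent.S17.FinExp.Radical

local notation "Qbar" => AlgebraicClosure ℚ
local notation "GQ" => (AlgebraicClosure ℚ ≃ₐ[ℚ] AlgebraicClosure ℚ)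

theorem isGalois_qbar : IsGalois ℚ Qbar :=
  haveI : IsAlgClosure ℚ Qbar := AlgebraicClosure.instIsAlgClosure ℚ
  IsAlgClosure.isGalois ℚ Qbar

attribute [local instance] isGalois_qbar

section Group

variable {G : Type*} [Group G] (N : Subgroup G) [N.Normal]

/-- The quotient by a normal subgroup containing all commutators is commutative. -/
@[reducible] def quotCommGroup (h : ∀ a b : G, a * b * a⁻¹ * b⁻¹ ∈ N) : CommGroup (G ⧸ N) :=
  { (inferInstance : Group (G ⧸ N)) with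
    mul_comm := by
      intro a b
      obtain ⟨a, rfl⟩ := QuotientGroup.mk_surjective a
      obtain ⟨b, rfl⟩ := QuotientGroup.mk_surjective b
      rw [← QuotientGroup.mk_mul, ← QuotientGroup.mk_mul, QuotientGroup.eq]
      have := h b⁻¹ a⁻¹
      simpa [mul_assoc] using this }

/-- Characters with values in `ℚ̄ˣ` separate the points of a finite abelian quotient. -/
theorem exists_char [Finite (G ⧸ N)] (h : ∀ a b : G, a * b * a⁻¹ * b⁻¹ ∈ N) {g : G}
    (hg : g ∉ N) : ∃ φ : G →* Qbarˣ, (∀ n ∈ N, φ n = 1) ∧ φ g ≠ 1 := by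
  letI := quotCommGroup N h
  haveI : NeZero ((Monoid.exponent (G ⧸ N) : ℕ) : ℚ) :=
    ⟨by exact_mod_cast Monoid.exponent_ne_zero_of_finite⟩
  have hne : (QuotientGroup.mk g : G ⧸ N) ≠ 1 := by rwa [Ne, QuotientGroup.eq_one_iff]
  obtain ⟨ψ, hψ⟩ := CommGroup.exists_apply_ne_one_of_hasEnoughRootsOfUnity (G ⧸ N) Qbar hne
  refine ⟨ψ.comp (QuotientGroup.mk' N), fun n hn => ?_, hψ⟩
  rw [MonoidHom.comp_apply, QuotientGroup.mk'_apply, (QuotientGroup.eq_one_iff n).mpr hn, map_one]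

end Group

section Resolvent

variable {H V : Subgroup GQ} (φ : ↥H →* Qbarˣ)

/-- the `q`-th term of the Lagrange resolvent of `x` -/
noncomputable def term (x : Qbar) (q : ↥H ⧸ V.subgroupOf H) : Qbar :=
  ((φ (q.out)⁻¹ : Qbarˣ) : Qbar) * ((q.out : ↥H) : GQ) x

theorem term_mk (hφ : ∀ n ∈ V.subgroupOf H, φ n = 1) {x : Qbar} (hx : ∀ v ∈ V, v x = x)
    (h : ↥H) :
    term φ x (QuotientGroup.mk h : ↥H ⧸ V.subgroupOf H) =
      ((φ h⁻¹ : Qbarˣ) : Qbar) * (h : GQ) x := by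
  obtain ⟨n, hn⟩ := QuotientGroup.mk_out_eq_mul (V.subgroupOf H) h
  have h1 : φ (h * n)⁻¹ = φ h⁻¹ := by
    rw [map_inv, map_inv, map_mul, hφ n n.2, mul_one]
  have h2 : ((h * n : ↥H) : GQ) x = (h : GQ) x := by
    rw [Subgroup.coe_mul, AlgEquiv.mul_apply, hx _ (Subgroup.mem_subgroupOf.mp n.2)]
  rw [term, hn, h1, h2]

theorem map_term (hφ : ∀ n ∈ V.subgroupOf H, φ n = 1)
    (hfix : ∀ g : ↥H, ∀ a : ↥H, (g : GQ) ((φ a : Qbarˣ) : Qbar) = φ a)
    {x : Qbar} (hx : ∀ v ∈ V, v x = x) (g h : ↥H) :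
    (g : GQ) (term φ x (QuotientGroup.mk h : ↥H ⧸ V.subgroupOf H)) =
      ((φ g : Qbarˣ) : Qbar) * term φ x (QuotientGroup.mk (g * h) : ↥H ⧸ V.subgroupOf H) := by
  rw [term_mk φ hφ hx, term_mk φ hφ hx, map_mul, hfix g]
  have h1 : ((g * h : ↥H) : GQ) x = (g : GQ) ((h : GQ) x) := rfl
  have h2 : ((φ g : Qbarˣ) : Qbar) * ((φ (g * h)⁻¹ : Qbarˣ) : Qbar) =
      ((φ h⁻¹ : Qbarˣ) : Qbar) := by
    rw [← Units.val_mul, mul_inv_rev, map_mul, map_inv φ g, mul_comm (φ h⁻¹),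
      mul_inv_cancel_left]
  rw [← mul_assoc, h2, h1]

variable [Fintype (↥H ⧸ V.subgroupOf H)]

/-- the Lagrange resolvent -/
noncomputable def resolvent (x : Qbar) : Qbar := ∑ q : ↥H ⧸ V.subgroupOf H, term φ x q

theorem map_resolvent [(V.subgroupOf H).Normal] (hφ : ∀ n ∈ V.subgroupOf H, φ n = 1)
    (hfix : ∀ g : ↥H, ∀ a : ↥H, (g : GQ) ((φ a : Qbarˣ) : Qbar) = φ a)
    {x : Qbar} (hx : ∀ v ∈ V, v x = x) (g : ↥H) :
    (g : GQ) (resolvent (V := V) φ x) = ((φ g : Qbarˣ) : Qbar) * resolvent (V := V) φ x := by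
  have key : ∑ q : ↥H ⧸ V.subgroupOf H, term φ x q =
      ∑ q : ↥H ⧸ V.subgroupOf H, term φ x ((QuotientGroup.mk g : ↥H ⧸ V.subgroupOf H) * q) :=
    (Equiv.sum_comp (Equiv.mulLeft (QuotientGroup.mk g : ↥H ⧸ V.subgroupOf H))
      (fun q => term φ x q)).symm
  rw [resolvent, map_sum, key, Finset.mul_sum]
  refine Finset.sum_congr rfl fun q _ => ?_
  obtain ⟨h, rfl⟩ := QuotientGroup.mk_surjective q
  exact map_term φ hφ hfix hx g h

theorem exists_resolvent_ne_zero (hVclosed : IsClosed (V : Set GQ)) :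
    ∃ x : Qbar, (∀ v ∈ V, v x = x) ∧ resolvent (V := V) φ x ≠ 0 := by
  classical
  set L₁ : IntermediateField ℚ Qbar := IntermediateField.fixedField V with hL₁
  have hfixL : L₁.fixingSubgroup = V :=
    InfiniteGalois.fixingSubgroup_fixedField (⟨V, hVclosed⟩ : ClosedSubgroup GQ)
  let f : (↥H ⧸ V.subgroupOf H) → (↥L₁ →ₐ[ℚ] Qbar) := fun q =>
    (((q.out : ↥H) : GQ) : Qbar →ₐ[ℚ] Qbar).comp L₁.val
  have hf : Function.Injective f := by
    intro q q' hqq'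
    have h1 : ((q.out : ↥H) : GQ)⁻¹ * ((q'.out : ↥H) : GQ) ∈ L₁.fixingSubgroup := by
      rw [IntermediateField.mem_fixingSubgroup_iff]
      intro y hy
      have h2 := DFunLike.congr_fun hqq' ⟨y, hy⟩
      have h3 : ((q.out : ↥H) : GQ) y = ((q'.out : ↥H) : GQ) y := h2
      rw [AlgEquiv.mul_apply, ← h3]
      exact AlgEquiv.symm_apply_apply _ y
    rw [hfixL] at h1
    have h4 : (QuotientGroup.mk q.out : ↥H ⧸ V.subgroupOf H) = QuotientGroup.mk q'.out := by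
      rw [QuotientGroup.eq, Subgroup.mem_subgroupOf]
      simpa using h1
    rwa [QuotientGroup.out_eq', QuotientGroup.out_eq'] at h4
  have hli : LinearIndependent Qbar (fun q => (f q).toLinearMap) :=
    (linearIndependent_algHom_toLinearMap ℚ ↥L₁ Qbar).comp f hf
  by_contra hcon
  push Not at hcon
  have hzero : ∑ q : ↥H ⧸ V.subgroupOf H,
      ((φ (q.out)⁻¹ : Qbarˣ) : Qbar) • (f q).toLinearMap = 0 := by
    apply LinearMap.ext
    intro y
    have h5 := hcon (y : Qbar) (fun v hv =>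
      (IntermediateField.mem_fixedField_iff V (y : Qbar)).mp y.2 v hv)
    rw [LinearMap.sum_apply, LinearMap.zero_apply]
    rw [resolvent] at h5
    rw [← h5]
    refine Finset.sum_congr rfl fun q _ => ?_
    rfl
  have h6 := Fintype.linearIndependent_iff.mp hli _ hzero
    (QuotientGroup.mk 1 : ↥H ⧸ V.subgroupOf H)
  exact Units.ne_zero _ h6

end Resolvent

/-- **Kummer radicals.** -/
theorem exists_radical {K₁ : IntermediateField ℚ Qbar} {m : ℕ} (hm : m ≠ 0) {ζ : Qbar}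
    (hζ : IsPrimitiveRoot ζ m) (hζK : ζ ∈ K₁) {V : Subgroup GQ}
    (hVH : V ≤ K₁.fixingSubgroup) (hVopen : IsOpen (V : Set GQ))
    (hcomm : ∀ σ ∈ K₁.fixingSubgroup, ∀ τ ∈ K₁.fixingSubgroup, σ * τ * σ⁻¹ * τ⁻¹ ∈ V)
    (hpow : ∀ σ ∈ K₁.fixingSubgroup, σ ^ m ∈ V)
    {σ : GQ} (hσH : σ ∈ K₁.fixingSubgroup) (hσV : σ ∉ V) :
    ∃ β : Qbar, β ≠ 0 ∧ β ^ m ∈ K₁ ∧ (∀ v ∈ V, v β = β) ∧ σ β ≠ β := by
  classical
  set H : Subgroup GQ := K₁.fixingSubgroup with hH
  haveI hnormal : (V.subgroupOf H).Normal := by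
    refine ⟨fun n hn g => ?_⟩
    rw [Subgroup.mem_subgroupOf] at hn ⊢
    have h1 := hcomm g g.2 n n.2
    have h2 : ((g * n * g⁻¹ : ↥H) : GQ) = (g : GQ) * n * (g : GQ)⁻¹ * (n : GQ)⁻¹ * n := by
      simp
    rw [h2]
    exact V.mul_mem h1 hn
  haveI : Finite (GQ ⧸ V) := Subgroup.quotient_finite_of_isOpen V hVopen
  haveI : V.FiniteIndex := Subgroup.finiteIndex_of_finite_quotient
  haveI : Finite (↥H ⧸ V.subgroupOf H) := Subgroup.finite_quotient_of_finiteIndex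
  haveI : Fintype (↥H ⧸ V.subgroupOf H) := Fintype.ofFinite _
  have hcomm' : ∀ a b : ↥H, a * b * a⁻¹ * b⁻¹ ∈ V.subgroupOf H := by
    intro a b
    rw [Subgroup.mem_subgroupOf]
    simpa using hcomm a a.2 b b.2
  have hσN : (⟨σ, hσH⟩ : ↥H) ∉ V.subgroupOf H := by
    rw [Subgroup.mem_subgroupOf]
    exact hσV
  obtain ⟨φ, hφN, hφσ⟩ := exists_char (V.subgroupOf H) hcomm' hσN
  -- the values of `φ` are `m`-th roots of unity, hence lie in `K₁`
  have hφm : ∀ a : ↥H, ((φ a : Qbarˣ) : Qbar) ^ m = 1 := by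
    intro a
    have h1 : a ^ m ∈ V.subgroupOf H := by
      rw [Subgroup.mem_subgroupOf]
      simpa using hpow a a.2
    have h2 := hφN _ h1
    rw [map_pow] at h2
    rw [← Units.val_pow_eq_pow_val, h2, Units.val_one]
  have hφK : ∀ a : ↥H, ((φ a : Qbarˣ) : Qbar) ∈ K₁ := by
    intro a
    haveI : NeZero m := ⟨hm⟩
    obtain ⟨i, -, hi⟩ := hζ.eq_pow_of_pow_eq_one (hφm a)
    rw [← hi]
    exact pow_mem hζK i
  have hfix : ∀ g : ↥H, ∀ a : ↥H, (g : GQ) ((φ a : Qbarˣ) : Qbar) = φ a := by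
    intro g a
    exact (IntermediateField.mem_fixingSubgroup_iff K₁ (g : GQ)).mp g.2 _ (hφK a)
  obtain ⟨x, hx, hβ0⟩ := exists_resolvent_ne_zero (H := H) (V := V) φ
    (Subgroup.isClosed_of_isOpen V hVopen)
  have hmap := map_resolvent (V := V) φ hφN hfix hx
  refine ⟨resolvent (V := V) φ x, hβ0, ?_, ?_, ?_⟩
  · -- `β ^ m` is fixed by `H`
    rw [← InfiniteGalois.fixedField_fixingSubgroup K₁, IntermediateField.mem_fixedField_iff]
    intro g hg
    have h1 := hmap ⟨g, hg⟩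
    have h2 : g (resolvent (V := V) φ x) =
        ((φ ⟨g, hg⟩ : Qbarˣ) : Qbar) * resolvent (V := V) φ x := h1
    rw [map_pow, h2, mul_pow, hφm, one_mul]
  · intro v hv
    have h1 := hmap ⟨v, hVH hv⟩
    have h2 : φ ⟨v, hVH hv⟩ = 1 := hφN _ (by rw [Subgroup.mem_subgroupOf]; exact hv)
    have h3 : v (resolvent (V := V) φ x) =
        ((φ ⟨v, hVH hv⟩ : Qbarˣ) : Qbar) * resolvent (V := V) φ x := h1
    rw [h3, h2, Units.val_one, one_mul]
  · have h1 := hmap ⟨σ, hσH⟩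
    have h3 : σ (resolvent (V := V) φ x) =
        ((φ ⟨σ, hσH⟩ : Qbarˣ) : Qbar) * resolvent (V := V) φ x := h1
    rw [h3]
    intro h4
    have h5 : ((φ ⟨σ, hσH⟩ : Qbarˣ) : Qbar) = 1 :=
      mul_right_cancel₀ hβ0 (by rw [h4, one_mul])
    exact hφσ (Units.ext h5)

end Fermat.Agent.S17.FinExp.Radical
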