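import Mathlib
import Fermat.Agent.CFT.LocalBridge.Inertia
import Fermat.Agent.CFT.LocalBridge.Conjugacy
import Fermat.Agent.CFT.C7.KummerUnram
import Fermat.Prelude.Def_GroupCohomology_ContinuousUnramified

/-!
# PROJECT H (S17), slice (F), part 1: a number field is unramified outside a finite set of primes

In the Prelude's valuation-subring language: for every finite subextension `F` of `ℚ̄/ℚ` there is
a finite set `T` of rational primes such that the inertia group of every valuation subring of `ℚ̄`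
over a prime `q ∉ T` fixes `F` pointwise (`F.IsUnramifiedOutside T`).

Proof: `F = ℚ(θ)` with `θ` an algebraic integer; the finitely many nonzero differences
`δ = θ' - θ` (`θ'` a conjugate of `θ`) all divide one nonzero integer `D` in the ring of algebraic
integers; `T` = the primes dividing `D`.  If `σ` lies in an inertia group over `q ∉ T` and
`σ θ ≠ θ`, then `δ = σ θ - θ` is a nonunit of the valuation subring, hence so is `D`, i.e. `q ∣ D`.
-/

set_option autoImplicit false

open scoped IntermediateField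

namespace Fermat.Agent.S17.FinExp.UnramFinite

open Fermat.Agent.CFT.LocalBridge Fermat.Agent.CFT.C7.KummerUnram

local notation "Qbar" => AlgebraicClosure ℚ
local notation "GQ" => (AlgebraicClosure ℚ ≃ₐ[ℚ] AlgebraicClosure ℚ)

theorem isAlgebraic_int (x : Qbar) : IsAlgebraic ℤ x :=
  (IsFractionRing.isAlgebraic_iff ℤ ℚ Qbar).mpr (Algebra.IsAlgebraic.isAlgebraic x)

/-- A nonzero algebraic number divides a nonzero integer in the ring of algebraic integers. -/
theorem exists_int_eq_mul {δ : Qbar} (hδ : δ ≠ 0) :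
    ∃ (n : ℤ) (δ' : Qbar), n ≠ 0 ∧ IsIntegral ℤ δ' ∧ (n : Qbar) = δ * δ' := by
  obtain ⟨n, hn, hint⟩ := IsAlgebraic.exists_integral_multiple (isAlgebraic_int δ⁻¹)
  refine ⟨n, n • δ⁻¹, hn, hint, ?_⟩
  rw [zsmul_eq_mul, mul_comm δ, mul_assoc, inv_mul_cancel₀ hδ, mul_one]

/-- Every algebraic number has a nonzero integer multiple which is an algebraic integer. -/
theorem exists_int_mul_isIntegral (x : Qbar) :
    ∃ n : ℤ, n ≠ 0 ∧ IsIntegral ℤ ((n : Qbar) * x) := by
  obtain ⟨n, hn, hint⟩ := IsAlgebraic.exists_integral_multiple (isAlgebraic_int x)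
  exact ⟨n, hn, by rwa [zsmul_eq_mul] at hint⟩

/-- Finitely many nonzero algebraic numbers all divide one nonzero integer (in the ring of
algebraic integers). -/
theorem exists_int_common_multiple (Δ : Finset Qbar) (hΔ : ∀ δ ∈ Δ, δ ≠ 0) :
    ∃ D : ℤ, D ≠ 0 ∧ ∀ δ ∈ Δ, ∃ δ' : Qbar, IsIntegral ℤ δ' ∧ (D : Qbar) = δ * δ' := by
  classical
  induction Δ using Finset.induction_on with
  | empty => exact ⟨1, one_ne_zero, fun δ hδ => absurd hδ (Finset.notMem_empty δ)⟩
  | insert a s _ ih =>
    obtain ⟨D, hD0, hD⟩ := ih fun δ hδ => hΔ δ (Finset.mem_insert_of_mem hδ)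
    obtain ⟨n, a', hn0, ha', hna⟩ := exists_int_eq_mul (hΔ a (Finset.mem_insert_self a s))
    refine ⟨n * D, mul_ne_zero hn0 hD0, fun δ hδ => ?_⟩
    rcases Finset.mem_insert.mp hδ with rfl | hδs
    · refine ⟨a' * (D : Qbar), ha'.mul (isIntegral_algebraMap (R := ℤ) (x := D)), ?_⟩
      push_cast
      rw [hna]
      ring
    · obtain ⟨δ', hδ', hDδ⟩ := hD δ hδs
      refine ⟨(n : Qbar) * δ', (isIntegral_algebraMap (R := ℤ) (x := n)).mul hδ', ?_⟩
      push_cast
      rw [hDδ]
      ring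

/-- The finite set of primes dividing a nonzero integer. -/
noncomputable def primesOf (D : ℤ) : Finset Nat.Primes :=
  (Finset.subtype Nat.Prime D.natAbs.primeFactors : Finset {p : ℕ // p.Prime})

theorem mem_primesOf {D : ℤ} (hD : D ≠ 0) (q : Nat.Primes) :
    q ∈ primesOf D ↔ ((q : ℕ) : ℤ) ∣ D := by
  have h1 : q ∈ primesOf D ↔ (q : ℕ) ∈ D.natAbs.primeFactors :=
    Finset.mem_subtype (p := Nat.Prime) (s := D.natAbs.primeFactors) (a := q)
  rw [h1, Nat.mem_primeFactors, Int.natCast_dvd]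
  exact ⟨fun h => h.2.1, fun h => ⟨q.2, h, Int.natAbs_ne_zero.mpr hD⟩⟩

/-- The field generated by an algebraic integer is unramified outside a finite set of primes. -/
theorem exists_isUnramifiedOutside_adjoin_integral {θ : Qbar} (hθ : IsIntegral ℤ θ) :
    ∃ T : Finset Nat.Primes, (ℚ⟮θ⟯).IsUnramifiedOutside T := by
  classical
  have hθQ : IsIntegral ℚ θ := isIntegral_qbar θ
  have hmin0 : minpoly ℚ θ ≠ 0 := minpoly.ne_zero hθQ
  -- the nonzero differences of conjugates
  set R : Finset Qbar := ((minpoly ℚ θ).aroots Qbar).toFinset with hR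
  set Δ : Finset Qbar := (R.image fun θ' => θ' - θ).erase 0 with hΔ
  obtain ⟨D, hD0, hD⟩ := exists_int_common_multiple Δ fun δ hδ => (Finset.mem_erase.mp hδ).1
  refine ⟨primesOf D, IntermediateField.adjoin.finiteDimensional hθQ, fun q hq A hA σ hσ => ?_⟩
  have hσθ : σ θ = θ := by
    by_contra hne
    have hroot : σ θ ∈ R := by
      rw [hR, Multiset.mem_toFinset, Polynomial.mem_aroots]
      refine ⟨hmin0, ?_⟩
      rw [Polynomial.aeval_algEquiv, AlgHom.coe_comp, Function.comp_apply, minpoly.aeval]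
      exact map_zero _
    have hδ : σ θ - θ ∈ Δ := by
      rw [hΔ, Finset.mem_erase]
      exact ⟨sub_ne_zero.mpr hne, Finset.mem_image.mpr ⟨σ θ, hroot, rfl⟩⟩
    obtain ⟨δ', hδ', hDδ⟩ := hD _ hδ
    have h1 : σ θ - θ ∈ A.nonunits :=
      ((mem_inertiaSubgroupIn_iff A σ).mp hσ).2 θ (isIntegral_int_mem A hθ)
    have h2 : ((D : ℤ) : Qbar) ∈ A.nonunits := by
      rw [hDδ]
      exact mul_mem_nonunits A h1 (isIntegral_int_mem A hδ')
    exact hq ((mem_primesOf hD0 q).mpr ((intCast_mem_nonunits_iff' q.2 hA D).mp h2))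
  have hle : ℚ⟮θ⟯ ≤ IntermediateField.fixedField (Subgroup.zpowers σ) := by
    rw [IntermediateField.adjoin_simple_le_iff, IntermediateField.mem_fixedField_iff]
    rintro τ hτ
    have hst : σ ∈ MulAction.stabilizer GQ θ := hσθ
    exact (Subgroup.zpowers_le.mpr hst) hτ
  exact (IntermediateField.le_iff_le _ _).mp hle (Subgroup.mem_zpowers σ)

/-- The field generated by an algebraic number is unramified outside a finite set of primes. -/
theorem exists_isUnramifiedOutside_adjoin (θ : Qbar) :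
    ∃ T : Finset Nat.Primes, (ℚ⟮θ⟯).IsUnramifiedOutside T := by
  obtain ⟨d, hd0, hdint⟩ := exists_int_mul_isIntegral θ
  obtain ⟨T, hT⟩ := exists_isUnramifiedOutside_adjoin_integral hdint
  refine ⟨T, hT.of_le ?_⟩
  rw [IntermediateField.adjoin_simple_le_iff]
  have hdQ : ((d : ℤ) : Qbar) ≠ 0 := by exact_mod_cast hd0
  have hdmem : ((d : ℤ) : Qbar) ∈ ℚ⟮(d : Qbar) * θ⟯ := by
    have : ((d : ℤ) : Qbar) = algebraMap ℚ Qbar (d : ℚ) := by simp
    rw [this]
    exact IntermediateField.algebraMap_mem _ _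
  have key : (d : Qbar)⁻¹ * ((d : Qbar) * θ) ∈ ℚ⟮(d : Qbar) * θ⟯ :=
    mul_mem (inv_mem hdmem) (IntermediateField.mem_adjoin_simple_self ℚ _)
  rwa [← mul_assoc, inv_mul_cancel₀ hdQ, one_mul] at key

/-- **A number field inside `ℚ̄` is unramified outside a finite set of primes.** -/
theorem exists_isUnramifiedOutside (F : IntermediateField ℚ Qbar) [FiniteDimensional ℚ F] :
    ∃ T : Finset Nat.Primes, F.IsUnramifiedOutside T := by
  obtain ⟨α, hα⟩ := Field.exists_primitive_element ℚ F
  obtain ⟨T, hT⟩ := exists_isUnramifiedOutside_adjoin (α : Qbar)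
  refine ⟨T, hT.of_le ?_⟩
  intro x hx
  have hmem : (⟨x, hx⟩ : F) ∈ (ℚ⟮α⟯ : IntermediateField ℚ F) := by
    rw [hα]; exact IntermediateField.mem_top
  have h2 : (IntermediateField.map F.val ℚ⟮α⟯) = ℚ⟮(α : Qbar)⟯ := by
    rw [IntermediateField.adjoin_map]
    simp
  rw [← h2]
  exact ⟨⟨x, hx⟩, hmem, rfl⟩

end Fermat.Agent.S17.FinExp.UnramFinite
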