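import Mathlib
import Fermat.Agent.S17.FinExp.UnramFinite
import Fermat.Agent.S17.FinExp.Radical
import Fermat.Agent.CFT.C7.UnramDict
import Fermat.Agent.CFT.C7.Selmer
import Fermat.Agent.CFT.C7.PlaceDict
import Fermat.Agent.CFT.C7.KummerUnram

/-!
# PROJECT H (S17), slice (F): finiteness of the maximal abelian extension of exponent `m`
unramified outside a finite set of primes

`finExp` : for a number field `E₀ ⊂ ℚ̄`, `m ≠ 0`, `N ≠ 0` there is ONE number field `M ⊂ ℚ̄` with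
`G_M ≤ U` for every open subgroup `U ≤ G_{E₀}` containing the commutators and the `m`-th powers of
`G_{E₀}` and the inertia groups (inside `G_{E₀}`) at all primes `p ∤ m N`.  This is literally the
hypothesis `hF` (`FinExp E₀ m {p | p ∣ m * N}` unfolded) of helper22's
`Fermat.Agent.S17.WeakMW.finiteIndex_range_nsmul`.

Proof (classical, Kummer theory + finiteness of the Selmer group `K₁(T, m)`):
`K₁ = E₀(ζ_m)`, `T` = primes dividing `m N` or ramified in `E₀`; `Γ ⊂ K₁ˣ` a finite set of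
representatives of `K₁(T, m) = {x : m ∣ ord_w x ∀ w ∤ T} / K₁ˣᵐ` (stock `CFT/C7/Selmer`);
`M = K₁(γ^{1/m} : γ ∈ Γ)`.  If `σ ∈ G_M ∖ U`, `Radical.exists_radical` (for `V = U ∩ G_{K₁}`) gives
`β` with `β ^ m ∈ K₁ˣ`, `V β = β`, `σ β ≠ β`; `ℚ(β)` is unramified outside `T` because the inertia
groups outside `T` lie in `V`; hence `m ∣ ord_w (β ^ m)` for `w ∤ T` (stock `UnramDict`), so
`β ^ m = γ y ^ m` and `β ∈ μ_m · γ^{1/m} · K₁ˣ ⊂ M`, contradiction.
-/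

set_option autoImplicit false
set_option linter.style.haveILetI false

open scoped IntermediateField NumberField

open IsDedekindDomain

namespace Fermat.Agent.S17.FinExp.Main

open Fermat.Agent.CFT.LocalBridge Fermat.Agent.CFT.C7.KummerUnram Fermat.Agent.CFT.C7.PlaceDict
  Fermat.Agent.CFT.C7.UnramDict Fermat.Agent.CFT.C7.Selmer Fermat.Agent.CFT.C3.ClassGen
  Fermat.Agent.S17.FinExp.UnramFinite Fermat.Agent.S17.FinExp.Radical

local notation "Qbar" => AlgebraicClosure ℚ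
local notation "GQ" => (AlgebraicClosure ℚ ≃ₐ[ℚ] AlgebraicClosure ℚ)

/-- an automorphism fixing `θ` fixes `ℚ(θ)` -/
theorem mem_fixingSubgroup_adjoin_simple {σ : GQ} {θ : Qbar} (h : σ θ = θ) :
    σ ∈ (ℚ⟮θ⟯).fixingSubgroup := by
  have hle : ℚ⟮θ⟯ ≤ IntermediateField.fixedField (Subgroup.zpowers σ) := by
    rw [IntermediateField.adjoin_simple_le_iff, IntermediateField.mem_fixedField_iff]
    rintro τ hτ
    have hst : σ ∈ MulAction.stabilizer GQ θ := h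
    exact (Subgroup.zpowers_le.mpr hst) hτ
  exact (IntermediateField.le_iff_le _ _).mp hle (Subgroup.mem_zpowers σ)

section Ord

variable {K : Type*} [Field K] [NumberField K]

theorem ordv_eq_zero_of_valuation_eq_one (w : HeightOneSpectrum (𝓞 K)) (u : Kˣ)
    (h : w.valuation K (u : K) = 1) : ordv K w u = 0 := by
  have h1 : ((w.valuationOfNeZero u : Multiplicative ℤ) : WithZero (Multiplicative ℤ)) = 1 := by
    rw [HeightOneSpectrum.valuationOfNeZero_eq]; exact h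
  have h2 : w.valuationOfNeZero u = 1 := by exact_mod_cast h1
  rw [ordv, h2]
  rfl

/-- If `a · z ^ m` is a `w`-adic unit then `m ∣ ord_w a`. -/
theorem dvd_ordv_of_valuation_mul_pow_eq_one (w : HeightOneSpectrum (𝓞 K)) (a z : Kˣ) (m : ℕ)
    (h : w.valuation K ((a : K) * (z : K) ^ m) = 1) : (m : ℤ) ∣ ordv K w a := by
  have h1 : ordv K w (a * z ^ m) = 0 :=
    ordv_eq_zero_of_valuation_eq_one w (a * z ^ m) (by simpa using h)
  rw [ordv_mul, ordv_pow] at h1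
  exact ⟨- ordv K w z, by linarith⟩

end Ord

/-- **Unramified radicals have valuations divisible by `m`.** -/
theorem mem_divGroup_of_unramified {T : Finset Nat.Primes} (K₁ : IntermediateField ℚ Qbar)
    [NumberField K₁] {m : ℕ} {β : Qbar} (hβ0 : β ≠ 0) (a : (↥K₁)ˣ)
    (ha : (((a : (↥K₁)ˣ) : ↥K₁) : Qbar) = β ^ m) (hβ : (ℚ⟮β⟯).IsUnramifiedOutside T) :
    a ∈ divGroup (𝓞 K₁) K₁ {w | natPrime K₁ w ∈ T} m := by
  intro w hw
  have hwT : natPrime K₁ w ∉ T := hw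
  obtain ⟨A, hA, hAw⟩ := exists_placeOf_eq (algebraMap K₁ Qbar) w
  set q : Nat.Primes := natPrime K₁ w with hq
  obtain ⟨k, hk⟩ := exists_zpow_valuation_eq_one hβ q hwT hA (y := β)
    (IntermediateField.mem_adjoin_simple_self ℚ β) hβ0
  have hq0 : (((q : ℕ) : ↥K₁)) ≠ 0 := by exact_mod_cast q.2.ne_zero
  set z : (↥K₁)ˣ := (Units.mk0 (((q : ℕ) : ↥K₁)) hq0) ^ k with hz
  refine dvd_ordv_of_valuation_mul_pow_eq_one w a z m ?_
  rw [← hAw, valuation_placeOf_eq_one_iff]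
  have h1 : algebraMap (↥K₁) Qbar (((a : (↥K₁)ˣ) : ↥K₁) * ((z : (↥K₁)ˣ) : ↥K₁) ^ m) =
      (β * ((q : ℕ) : Qbar) ^ k) ^ m := by
    rw [map_mul, map_pow, mul_pow, ← ha, hz, Units.val_zpow_eq_zpow_val, Units.val_mk0,
      map_zpow₀, map_natCast]
    rfl
  rw [h1, map_pow, hk, one_pow]

/-- **(F), general form.** -/
theorem finExp_of_finset (E₀ : IntermediateField ℚ Qbar) [FiniteDimensional ℚ E₀] {m : ℕ}
    (hm : m ≠ 0) (S : Set ℕ) (S' : Finset Nat.Primes)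
    (hS : ∀ p : Nat.Primes, (p : ℕ) ∈ S → p ∈ S') :
    ∃ M : IntermediateField ℚ Qbar, FiniteDimensional ℚ M ∧
      ∀ U : Subgroup GQ, U ≤ E₀.fixingSubgroup →
        (∀ σ ∈ E₀.fixingSubgroup, ∀ τ ∈ E₀.fixingSubgroup, σ * τ * σ⁻¹ * τ⁻¹ ∈ U) →
        (∀ σ ∈ E₀.fixingSubgroup, σ ^ m ∈ U) →
        (∃ E' : IntermediateField ℚ Qbar, FiniteDimensional ℚ E' ∧ E'.fixingSubgroup ≤ U) →
        (∀ p : ℕ, p.Prime → p ∉ S → ∀ A : ValuationSubring Qbar, A.LiesOverPrime p →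
          ∀ σ ∈ A.inertiaSubgroupIn ℚ, σ ∈ E₀.fixingSubgroup → σ ∈ U) →
        M.fixingSubgroup ≤ U := by
  classical
  -- the bad primes
  obtain ⟨T₀, hT₀⟩ := exists_isUnramifiedOutside E₀
  have hmZ : ((m : ℕ) : ℤ) ≠ 0 := by exact_mod_cast hm
  set T : Finset Nat.Primes := T₀ ∪ primesOf (m : ℤ) ∪ S' with hT
  have hSNat : IsSNat T m := by
    refine ⟨hm, fun q hq => ?_⟩
    rw [hT]
    refine Finset.mem_union_left _ (Finset.mem_union_right _ ?_)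
    rw [mem_primesOf hmZ]
    exact_mod_cast hq
  -- the cyclotomic base field
  haveI : NeZero ((m : ℕ) : ℚ) := ⟨by exact_mod_cast hm⟩
  obtain ⟨ζ, hζ⟩ := HasEnoughRootsOfUnity.exists_primitiveRoot Qbar m
  set K₁ : IntermediateField ℚ Qbar := E₀ ⊔ ℚ⟮ζ⟯ with hK₁def
  have hK₁ : K₁.IsUnramifiedOutside T :=
    (hT₀.mono (by rw [hT, Finset.union_assoc]; exact Finset.subset_union_left)).sup
      (isUnramifiedOutside_adjoin_of_pow_eq_one hSNat hζ.pow_eq_one)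
  haveI : FiniteDimensional ℚ K₁ := hK₁.1
  haveI : NumberField K₁ := numberField_of_finiteDimensional K₁
  have hζK : ζ ∈ K₁ :=
    (le_sup_right : ℚ⟮ζ⟯ ≤ K₁) (IntermediateField.mem_adjoin_simple_self ℚ ζ)
  have hE₀K : E₀ ≤ K₁ := le_sup_left
  -- representatives of the Selmer group and their `m`-th roots
  obtain ⟨Γ, -, hrep⟩ := exists_finset_rep_numberField K₁ {w | natPrime K₁ w ∈ T}
    (finite_setOf_natPrime_mem K₁ T) (Nat.pos_of_ne_zero hm)
  have hroot : ∀ γ : (↥K₁)ˣ, ∃ r : Qbar, r ^ m = (((γ : (↥K₁)ˣ) : ↥K₁) : Qbar) := fun γ =>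
    IsAlgClosed.exists_pow_nat_eq _ (Nat.pos_of_ne_zero hm)
  choose ρ hρ using hroot
  set R : Set Qbar := ρ '' (Γ : Set (↥K₁)ˣ) with hR
  haveI : Finite R := (Γ.finite_toSet.image ρ).to_subtype
  haveI : FiniteDimensional ℚ (IntermediateField.adjoin ℚ R) :=
    IntermediateField.finiteDimensional_adjoin fun x _ => isIntegral_qbar x
  refine ⟨K₁ ⊔ IntermediateField.adjoin ℚ R, IntermediateField.finiteDimensional_sup _ _, ?_⟩
  intro U hUE hcomm hpow hopen hin σ hσM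
  obtain ⟨E', hE'fin, hE'U⟩ := hopen
  by_contra hσU
  have hK₁M : K₁ ≤ K₁ ⊔ IntermediateField.adjoin ℚ R := le_sup_left
  have hRM : IntermediateField.adjoin ℚ R ≤ K₁ ⊔ IntermediateField.adjoin ℚ R := le_sup_right
  have hσH : σ ∈ K₁.fixingSubgroup := IntermediateField.fixingSubgroup_antitone hK₁M hσM
  have hHE : K₁.fixingSubgroup ≤ E₀.fixingSubgroup :=
    IntermediateField.fixingSubgroup_antitone hE₀K
  -- the open subgroup `V = U ∩ G_{K₁}`
  have hUopen : IsOpen (U : Set GQ) :=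
    Subgroup.isOpen_mono hE'U (IntermediateField.fixingSubgroup_isOpen E')
  have hVopen : IsOpen ((U ⊓ K₁.fixingSubgroup : Subgroup GQ) : Set GQ) := by
    rw [Subgroup.coe_inf]
    exact hUopen.inter (IntermediateField.fixingSubgroup_isOpen K₁)
  obtain ⟨β, hβ0, hβK, hβV, hσβ⟩ := exists_radical hm hζ hζK
    (V := U ⊓ K₁.fixingSubgroup) inf_le_right hVopen
    (fun σ₁ h₁ τ₁ h₂ => Subgroup.mem_inf.mpr ⟨hcomm σ₁ (hHE h₁) τ₁ (hHE h₂),
      K₁.fixingSubgroup.mul_mem (K₁.fixingSubgroup.mul_mem (K₁.fixingSubgroup.mul_mem h₁ h₂)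
        (K₁.fixingSubgroup.inv_mem h₁)) (K₁.fixingSubgroup.inv_mem h₂)⟩)
    (fun σ₁ h₁ => Subgroup.mem_inf.mpr ⟨hpow σ₁ (hHE h₁), K₁.fixingSubgroup.pow_mem h₁ m⟩)
    hσH (fun h => hσU (Subgroup.mem_inf.mp h).1)
  -- `ℚ(β)` is unramified outside `T`
  have hβunr : (ℚ⟮β⟯).IsUnramifiedOutside T := by
    refine ⟨IntermediateField.adjoin.finiteDimensional (isIntegral_qbar β),
      fun q hq A hA τ hτ => ?_⟩
    have hτH : τ ∈ K₁.fixingSubgroup := hK₁.2 q hq A hA hτ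
    have hqS : (q : ℕ) ∉ S := fun h => hq (by
      rw [hT]; exact Finset.mem_union_right _ (hS q h))
    have hτU : τ ∈ U := hin q q.2 hqS A hA τ hτ (hHE hτH)
    exact mem_fixingSubgroup_adjoin_simple (hβV τ (Subgroup.mem_inf.mpr ⟨hτU, hτH⟩))
  -- `β ^ m` lies in the Selmer group
  have hβm0 : (⟨β ^ m, hβK⟩ : ↥K₁) ≠ 0 := by
    intro h
    exact pow_ne_zero m hβ0 (congrArg Subtype.val h)
  obtain ⟨γ, hγΓ, y, hy⟩ := hrep (Units.mk0 ⟨β ^ m, hβK⟩ hβm0)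
    (mem_divGroup_of_unramified K₁ hβ0 _ rfl hβunr)
  -- hence `β ∈ μ_m · ρ γ · K₁ˣ ⊂ M`
  have hy' : β ^ m = (ρ γ * (((y : (↥K₁)ˣ) : ↥K₁) : Qbar)) ^ m := by
    have h1 := congrArg (fun u : (↥K₁)ˣ => (((u : (↥K₁)ˣ) : ↥K₁) : Qbar)) hy
    simp only [Units.val_mk0, Units.val_mul, Units.val_pow_eq_pow_val,
      MulMemClass.coe_mul, SubmonoidClass.coe_pow] at h1
    rw [mul_pow, hρ γ]
    exact h1
  have hden0 : ρ γ * (((y : (↥K₁)ˣ) : ↥K₁) : Qbar) ≠ 0 := by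
    intro h
    rw [h, zero_pow hm] at hy'
    exact pow_ne_zero m hβ0 hy'
  have hunit : (β / (ρ γ * (((y : (↥K₁)ˣ) : ↥K₁) : Qbar))) ^ m = 1 := by
    rw [div_pow, hy', div_self (pow_ne_zero m hden0)]
  haveI : NeZero m := ⟨hm⟩
  obtain ⟨i, -, hi⟩ := hζ.eq_pow_of_pow_eq_one hunit
  have hβeq : β = ζ ^ i * (ρ γ * (((y : (↥K₁)ˣ) : ↥K₁) : Qbar)) := by
    rw [hi, div_mul_cancel₀ _ hden0]
  have hβM : β ∈ K₁ ⊔ IntermediateField.adjoin ℚ R := by
    rw [hβeq]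
    refine mul_mem (pow_mem (hK₁M hζK) i) (mul_mem (hRM ?_) (hK₁M (y : ↥K₁).2))
    exact IntermediateField.subset_adjoin ℚ R ⟨γ, hγΓ, rfl⟩
  exact hσβ ((IntermediateField.mem_fixingSubgroup_iff _ σ).mp hσM β hβM)

/-- **(F)** in the literal shape of the hypothesis `hF` of
`Fermat.Agent.S17.WeakMW.finiteIndex_range_nsmul` (`FinExp E₀ m {p | p ∣ m * N}` unfolded). -/
theorem finExp (E₀ : IntermediateField ℚ Qbar) (hE₀ : FiniteDimensional ℚ E₀) {m N : ℕ}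
    (hm : m ≠ 0) (hN : N ≠ 0) :
    ∃ M : IntermediateField ℚ Qbar, FiniteDimensional ℚ M ∧
      ∀ U : Subgroup GQ, U ≤ E₀.fixingSubgroup →
        (∀ σ ∈ E₀.fixingSubgroup, ∀ τ ∈ E₀.fixingSubgroup, σ * τ * σ⁻¹ * τ⁻¹ ∈ U) →
        (∀ σ ∈ E₀.fixingSubgroup, σ ^ m ∈ U) →
        (∃ E' : IntermediateField ℚ Qbar, FiniteDimensional ℚ E' ∧ E'.fixingSubgroup ≤ U) →
        (∀ p : ℕ, p.Prime → p ∉ {p : ℕ | p ∣ m * N} → ∀ A : ValuationSubring Qbar,
          A.LiesOverPrime p → ∀ σ ∈ A.inertiaSubgroupIn ℚ, σ ∈ E₀.fixingSubgroup → σ ∈ U) →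
        M.fixingSubgroup ≤ U := by
  have hmN : (((m * N : ℕ) : ℤ)) ≠ 0 := by exact_mod_cast mul_ne_zero hm hN
  refine finExp_of_finset E₀ hm {p : ℕ | p ∣ m * N} (primesOf ((m * N : ℕ) : ℤ)) fun p hp => ?_
  rw [mem_primesOf hmN]
  exact_mod_cast hp

end Fermat.Agent.S17.FinExp.Main
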